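/-
GalRep long shot, block (6), brick (6A) (helper4): the two-field covering inequality.
If `L₁, L₂` are Galois number fields and every prime of `ℚ` outside a finite set splits completely
in `L₁` or in `L₂`, then `1 ≤ 1/[L₁:ℚ] + 1/[L₂:ℚ]`.  Only the UPPER bound
`∑_{q ∈ Spl(L)} N q ^ (-s) ≤ (1/[L:F]) (log (1/(s-1)) + O(1))` is used
(`ExtVan.DegOne.mul_sum_le_tsum` + `ExtVan.SecondIneq.LS.exists_upper_bound_primeSum`), together
with the lower bound `log (1/(s-1)) - O(1) ≤ ∑_q N q ^ (-s)` for the base field.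
-/
import Fermat.Agent.ExtVan.DegOneInert
import Fermat.Agent.ExtVan.SecondIneq.ZetaOne

set_option autoImplicit false
set_option linter.style.haveILetI false
set_option linter.unusedSectionVars false

open NumberField IsDedekindDomain Ideal

namespace Fermat.Agent.S29lib.X

open Fermat.Agent.ExtVan Fermat.Agent.ExtVan.DegOne Fermat.Agent.ExtVan.SecondIneq

variable {F : Type*} [Field F] [NumberField F]

/-- `q` splits completely in `L` (in the form used by `ExtVan.DegOne.mul_sum_le_tsum`):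
unramified, and some prime above has the same absolute norm. -/
def SplitsIn (L : Type*) [Field L] [NumberField L] [Algebra F L]
    (q : HeightOneSpectrum (𝓞 F)) : Prop :=
  (∀ Q : Ideal (𝓞 L), Q.IsPrime → Q.LiesOver q.asIdeal → Q.ramificationIdx (𝓞 F) = 1) ∧
    ∃ Q : HeightOneSpectrum (𝓞 L), Q.asIdeal.LiesOver q.asIdeal ∧
      absNorm Q.asIdeal = absNorm q.asIdeal

/-- upper bound for the mass of any finite set of primes splitting completely in `L`. -/
theorem sum_splitsIn_le (L : Type*) [Field L] [NumberField L] [Algebra F L] [IsGalois F L] :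
    ∃ B : ℝ, ∀ s ∈ Set.Ioc (1 : ℝ) 2, ∀ A : Finset (HeightOneSpectrum (𝓞 F)),
      (∀ q ∈ A, SplitsIn L q) →
        ∑ q ∈ A, (absNorm q.asIdeal : ℝ) ^ (-s) ≤
          (Real.log (1 / (s - 1)) + B) / (Module.finrank F L : ℝ) := by
  obtain ⟨B, hB⟩ := LS.exists_upper_bound_primeSum L
  refine ⟨B, fun s hs A hA => ?_⟩
  have hn : 0 < (Module.finrank F L : ℝ) := by
    exact_mod_cast Module.finrank_pos (R := F) (M := L)
  have h1 := mul_sum_le_tsum (L := L) A hA (summable_primeNorm_rpow L hs.1)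
  have h2 := h1.trans (hB s hs)
  rw [le_div_iff₀ hn, mul_comm]
  exact h2

/-- **The covering inequality.** -/
theorem one_le_inv_add_inv_of_cover
    (L₁ : Type*) [Field L₁] [NumberField L₁] [Algebra F L₁] [IsGalois F L₁]
    (L₂ : Type*) [Field L₂] [NumberField L₂] [Algebra F L₂] [IsGalois F L₂]
    (S : Finset (HeightOneSpectrum (𝓞 F)))
    (hcover : ∀ q ∉ S, SplitsIn L₁ q ∨ SplitsIn L₂ q) :
    (1 : ℝ) ≤ 1 / (Module.finrank F L₁ : ℝ) + 1 / (Module.finrank F L₂ : ℝ) := by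
  classical
  obtain ⟨BF, hBF⟩ := LS.exists_lower_bound_primeSum F
  obtain ⟨B₁, hB₁⟩ := sum_splitsIn_le (F := F) L₁
  obtain ⟨B₂, hB₂⟩ := sum_splitsIn_le (F := F) L₂
  set n₁ : ℝ := (Module.finrank F L₁ : ℝ) with hn₁
  set n₂ : ℝ := (Module.finrank F L₂ : ℝ) with hn₂
  have hn₁pos : 0 < n₁ := by
    rw [hn₁]; exact_mod_cast Module.finrank_pos (R := F) (M := L₁)
  have hn₂pos : 0 < n₂ := by
    rw [hn₂]; exact_mod_cast Module.finrank_pos (R := F) (M := L₂)
  by_contra hlt
  push Not at hlt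
  set δ : ℝ := 1 - (1 / n₁ + 1 / n₂) with hδ
  have hδpos : 0 < δ := by rw [hδ]; linarith
  -- the key upper bound for the full prime sum
  have hkey : ∀ s ∈ Set.Ioc (1 : ℝ) 2,
      ∑' q : HeightOneSpectrum (𝓞 F), primeNorm q ^ (-s) ≤
        S.card + (Real.log (1 / (s - 1)) + B₁) / n₁ + (Real.log (1 / (s - 1)) + B₂) / n₂ := by
    intro s hs
    refine (summable_primeNorm_rpow F hs.1).tsum_le_of_sum_le fun A => ?_
    set A0 := A.filter fun q => q ∈ S with hA0
    set A1 := (A.filter fun q => q ∉ S).filter fun q => SplitsIn L₁ q with hA1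
    set A2 := (A.filter fun q => q ∉ S).filter fun q => ¬ SplitsIn L₁ q with hA2
    have hsplit : ∑ q ∈ A, primeNorm q ^ (-s) =
        ∑ q ∈ A0, primeNorm q ^ (-s) +
          (∑ q ∈ A1, primeNorm q ^ (-s) + ∑ q ∈ A2, primeNorm q ^ (-s)) := by
      rw [hA1, hA2, Finset.sum_filter_add_sum_filter_not, hA0,
        Finset.sum_filter_add_sum_filter_not]
    have h0 : ∑ q ∈ A0, primeNorm q ^ (-s) ≤ S.card := by
      calc ∑ q ∈ A0, primeNorm q ^ (-s) ≤ ∑ q ∈ A0, (1 : ℝ) :=
            Finset.sum_le_sum fun q _ => rpow_neg_le_one q (by linarith [hs.1])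
        _ = (A0.card : ℝ) := by simp
        _ ≤ S.card := by
            have : A0 ⊆ S := fun q hq => (Finset.mem_filter.mp hq).2
            exact_mod_cast Finset.card_le_card this
    have h1 : ∑ q ∈ A1, primeNorm q ^ (-s) ≤ (Real.log (1 / (s - 1)) + B₁) / n₁ :=
      hB₁ s hs A1 fun q hq => (Finset.mem_filter.mp hq).2
    have h2 : ∑ q ∈ A2, primeNorm q ^ (-s) ≤ (Real.log (1 / (s - 1)) + B₂) / n₂ := by
      refine hB₂ s hs A2 fun q hq => ?_
      rw [hA2, Finset.mem_filter, Finset.mem_filter] at hq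
      exact (hcover q hq.1.2).resolve_left hq.2
    rw [hsplit]
    linarith
  -- choose `s`
  set T : ℝ := BF + S.card + B₁ / n₁ + B₂ / n₂ with hT
  set x₀ : ℝ := |T| / δ + 1 with hx₀
  have hx₀pos : 0 < x₀ := by positivity
  set s : ℝ := 1 + Real.exp (-x₀) with hs
  have hs_mem : s ∈ Set.Ioc (1 : ℝ) 2 := by
    refine ⟨by rw [hs]; linarith [Real.exp_pos (-x₀)], ?_⟩
    have : Real.exp (-x₀) ≤ 1 := Real.exp_le_one_iff.mpr (by linarith)
    rw [hs]; linarith
  have hlog : Real.log (1 / (s - 1)) = x₀ := by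
    rw [hs, add_sub_cancel_left, one_div, ← Real.exp_neg, neg_neg, Real.log_exp]
  have hlow := hBF s hs_mem
  have hup := hkey s hs_mem
  rw [hlog] at hlow hup
  -- `x₀ - BF ≤ S.card + (x₀ + B₁)/n₁ + (x₀ + B₂)/n₂`, i.e. `δ x₀ ≤ T`
  have h1 : (x₀ + B₁) / n₁ = x₀ * (1 / n₁) + B₁ / n₁ := by ring
  have h2 : (x₀ + B₂) / n₂ = x₀ * (1 / n₂) + B₂ / n₂ := by ring
  have hδx : δ * x₀ ≤ T := by
    rw [hδ, hT]
    have := hlow.trans hup
    rw [h1, h2] at this
    nlinarith [this]
  have hTle : T ≤ |T| := le_abs_self T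
  have : δ * x₀ = |T| + δ := by
    rw [hx₀]; field_simp
  linarith

end Fermat.Agent.S29lib.X
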