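/-
GalRep long shot, block (6), brick (6B) (helper4): dictionary from the prelude's valuation-subring
Frobenius / inertia to "splits completely" for a finite Galois subfield `M ≤ Qbar`.
-/
import Fermat.Agent.S29lib.X.Cover
import Fermat.Agent.ExtVan.InertiaLift
import Fermat.Agent.ExtVan.ArtinFunct
import Fermat.Prelude.Def_EllipticCurve_FrobeniusTrace

set_option autoImplicit false
set_option linter.style.haveILetI false
set_option linter.unusedSectionVars false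

open NumberField IsDedekindDomain Ideal

noncomputable section

namespace Fermat.Agent.S29lib.X

open Fermat.Agent.ExtVan Fermat.Agent.ExtVan.InertiaLift

/-- primes of `𝓞 ℚ` containing a rational prime `ℓ` have absolute norm `ℓ`. -/
theorem absNorm_eq_of_natCast_mem (q : HeightOneSpectrum (𝓞 ℚ)) {ℓ : ℕ} (hℓ : ℓ.Prime)
    (hq : (ℓ : 𝓞 ℚ) ∈ q.asIdeal) : absNorm q.asIdeal = ℓ := by
  have hle : span {(ℓ : 𝓞 ℚ)} ≤ q.asIdeal := (span_singleton_le_iff_mem _).mpr hq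
  have hdvd := absNorm_dvd_absNorm_of_le hle
  rw [absNorm_span_natCast, RingOfIntegers.rank, Module.finrank_self, pow_one] at hdvd
  rcases (Nat.dvd_prime hℓ).mp hdvd with h | h
  · exact absurd (absNorm_eq_one_iff.mp h) q.isPrime.ne_top
  · exact h

/-- the prime of `𝓞 ℚ` containing the rational prime `ℓ` is `(ℓ)`. -/
theorem span_natCast_eq_asIdeal (q : HeightOneSpectrum (𝓞 ℚ)) {ℓ : ℕ} (hℓ : ℓ.Prime)
    (hq : (ℓ : 𝓞 ℚ) ∈ q.asIdeal) : span {(ℓ : 𝓞 ℚ)} = q.asIdeal := by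
  have hp : (span {(ℓ : 𝓞 ℚ)}).IsPrime := by
    apply Ideal.isPrime_of_irreducible_absNorm
    rw [absNorm_span_natCast, RingOfIntegers.rank, Module.finrank_self, pow_one]
    exact hℓ.prime.irreducible
  have hne0 : span {(ℓ : 𝓞 ℚ)} ≠ ⊥ := by
    rw [Ne, span_singleton_eq_bot]
    exact_mod_cast hℓ.ne_zero
  have hmax : (span {(ℓ : 𝓞 ℚ)}).IsMaximal := hp.isMaximal hne0
  exact hmax.eq_of_le q.isPrime.ne_top ((span_singleton_le_iff_mem _).mpr hq)

/-- every prime of `𝓞 ℚ` contains a rational prime. -/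
theorem exists_prime_natCast_mem_asIdeal (q : HeightOneSpectrum (𝓞 ℚ)) :
    ∃ ℓ : ℕ, ℓ.Prime ∧ (ℓ : 𝓞 ℚ) ∈ q.asIdeal := by
  haveI : NeZero q.asIdeal := ⟨q.ne_bot⟩
  exact ⟨Ideal.absNorm (q.asIdeal.under ℤ), Nat.absNorm_under_prime q.asIdeal,
    Int.absNorm_under_mem q.asIdeal⟩

/-- the absolute norm is injective on the primes of `𝓞 ℚ`. -/
theorem absNorm_asIdeal_injective :
    Function.Injective fun q : HeightOneSpectrum (𝓞 ℚ) => absNorm q.asIdeal := by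
  intro q q' h
  obtain ⟨ℓ, hℓ, hq⟩ := exists_prime_natCast_mem_asIdeal q
  obtain ⟨ℓ', hℓ', hq'⟩ := exists_prime_natCast_mem_asIdeal q'
  have h1 := absNorm_eq_of_natCast_mem q hℓ hq
  have h2 := absNorm_eq_of_natCast_mem q' hℓ' hq'
  have hll : ℓ = ℓ' := by
    simp only at h
    rw [← h1, ← h2, h]
  subst hll
  apply HeightOneSpectrum.ext
  rw [← span_natCast_eq_asIdeal q hℓ hq, ← span_natCast_eq_asIdeal q' hℓ hq']

section Field

variable (M : IntermediateField ℚ Qb) [FiniteDimensional ℚ M]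

instance numberField_intermediate : NumberField M := ⟨⟩

/-- the integers of `M` lie in every valuation subring of `Qb`. -/
theorem coe_mem_valuationSubring (A : ValuationSubring Qb) (x : 𝓞 M) :
    (((x : 𝓞 M) : M) : Qb) ∈ A := by
  have hx : IsIntegral ℤ (((x : 𝓞 M) : M) : Qb) := by
    have h1 : IsIntegral ℤ ((x : 𝓞 M) : M) := x.2
    exact h1.map (IsScalarTower.toAlgHom ℤ M Qb)
  obtain ⟨q, hmonic, hq⟩ := hx
  let φ : ℤ →+* A := Int.castRingHom A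
  have hint : IsIntegral A (((x : 𝓞 M) : M) : Qb) := by
    refine ⟨q.map φ, hmonic.map φ, ?_⟩
    rw [Polynomial.eval₂_map]
    have : (algebraMap A Qb).comp φ = algebraMap ℤ Qb := RingHom.ext_int _ _
    rw [this]
    exact hq
  obtain ⟨y, hy⟩ := (IsIntegrallyClosed.isIntegral_iff (R := A) (K := Qb)).mp hint
  rw [← hy]
  exact y.2

/-- the inclusion `𝓞 M → A`. -/
def toValSub (A : ValuationSubring Qb) : 𝓞 M →+* A :=
  ((algebraMap M Qb).comp (algebraMap (𝓞 M) M)).codRestrict A.toSubring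
    (coe_mem_valuationSubring M A)

@[simp] theorem coe_toValSub (A : ValuationSubring Qb) (x : 𝓞 M) :
    ((toValSub M A x : A) : Qb) = (((x : 𝓞 M) : M) : Qb) := rfl

/-- reduction `𝓞 M → κ(A)`. -/
def toResidue (A : ValuationSubring Qb) : 𝓞 M →+* IsLocalRing.ResidueField A :=
  (IsLocalRing.residue A).comp (toValSub M A)

/-- the prime of `𝓞 M` below `A`. -/
def primeBelowVal (A : ValuationSubring Qb) : Ideal (𝓞 M) := RingHom.ker (toResidue M A)

instance primeBelowVal_isPrime (A : ValuationSubring Qb) : (primeBelowVal M A).IsPrime :=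
  RingHom.ker_isPrime _

theorem natCast_mem_primeBelowVal {A : ValuationSubring Qb} {ℓ : ℕ} (hA : A.LiesOverPrime ℓ) :
    (ℓ : 𝓞 M) ∈ primeBelowVal M A := by
  rw [primeBelowVal, RingHom.mem_ker, toResidue, RingHom.comp_apply,
    IsLocalRing.residue_eq_zero_iff, ← ValuationSubring.coe_mem_nonunits_iff, coe_toValSub]
  have : (((ℓ : 𝓞 M) : M) : Qb) = (ℓ : Qb) := by simp
  rw [this]
  exact hA

/-- a Frobenius element at `A` that fixes `M` forces `x ^ ℓ = x` on the image of `𝓞 M` in the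
residue field of `A`. -/
theorem toResidue_pow_eq {A : ValuationSubring Qb} {ℓ : ℕ} {σ : Qb ≃ₐ[ℚ] Qb}
    (hσ : A.IsFrobeniusAt σ ℓ) (hfix : ∀ x ∈ M, σ x = x) (x : 𝓞 M) :
    toResidue M A x ^ ℓ = toResidue M A x := by
  obtain ⟨hdec, hfrob⟩ := hσ
  have h1 := hfrob (toResidue M A x)
  rw [← h1, toResidue, RingHom.comp_apply, ← IsLocalRing.ResidueField.residue_smul]
  congr 1
  apply Subtype.ext
  change σ ((toValSub M A x : A) : Qb) = ((toValSub M A x : A) : Qb)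
  rw [coe_toValSub]
  exact hfix _ ((x : 𝓞 M) : M).2

/-- **degree one**: if a Frobenius element at `A | ℓ` fixes `M`, the prime of `𝓞 M` below `A`
has absolute norm `ℓ`. -/
theorem absNorm_primeBelowVal {A : ValuationSubring Qb} {ℓ : ℕ} (hℓ : ℓ.Prime)
    (hA : A.LiesOverPrime ℓ) {σ : Qb ≃ₐ[ℚ] Qb}
    (hσ : A.IsFrobeniusAt σ ℓ) (hfix : ∀ x ∈ M, σ x = x) :
    absNorm (primeBelowVal M A) = ℓ := by
  classical
  set Q := primeBelowVal M A with hQ
  set κ := IsLocalRing.ResidueField A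
  let P : Polynomial κ := Polynomial.X ^ ℓ - Polynomial.X
  have hℓ1 : 1 < ℓ := hℓ.one_lt
  have hP0 : P ≠ 0 := FiniteField.X_pow_card_sub_X_ne_zero κ hℓ1
  have hdeg : P.natDegree = ℓ := FiniteField.X_pow_card_sub_X_natDegree_eq κ hℓ1
  let T : Finset κ := P.roots.toFinset
  have hTcard : T.card ≤ ℓ :=
    (Multiset.toFinset_card_le _).trans ((Polynomial.card_roots' P).trans hdeg.le)
  let f : 𝓞 M ⧸ Q → κ := RingHom.kerLift (toResidue M A)
  have hf_inj : Function.Injective f := RingHom.kerLift_injective _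
  have hf_mem : ∀ y, f y ∈ T := by
    intro y
    obtain ⟨x, rfl⟩ := Ideal.Quotient.mk_surjective y
    rw [Multiset.mem_toFinset, Polynomial.mem_roots hP0, Polynomial.IsRoot.def]
    have : f (Ideal.Quotient.mk Q x) = toResidue M A x := RingHom.kerLift_mk _ x
    rw [this]
    simp only [P, Polynomial.eval_sub, Polynomial.eval_pow, Polynomial.eval_X]
    rw [toResidue_pow_eq M hσ hfix x, sub_self]
  have hcard_le : Nat.card (𝓞 M ⧸ Q) ≤ ℓ := by
    have h1 : Nat.card (𝓞 M ⧸ Q) ≤ Nat.card T :=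
      Nat.card_le_card_of_injective (fun y => (⟨f y, hf_mem y⟩ : T))
        (fun a b h => hf_inj (Subtype.ext_iff.mp h))
    have h2 : Nat.card T = T.card := by
      rw [Nat.card_eq_fintype_card, Fintype.card_coe]
    rw [h2] at h1
    exact h1.trans hTcard
  have habs : absNorm Q = Nat.card (𝓞 M ⧸ Q) := rfl
  have hmem : (ℓ : 𝓞 M) ∈ Q := natCast_mem_primeBelowVal M hA
  have hle : span {(ℓ : 𝓞 M)} ≤ Q := (span_singleton_le_iff_mem _).mpr hmem
  have hdvd := absNorm_dvd_absNorm_of_le hle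
  rw [absNorm_span_natCast] at hdvd
  obtain ⟨j, -, hj⟩ := (Nat.dvd_prime_pow hℓ).mp hdvd
  have hne1 : absNorm Q ≠ 1 := fun h =>
    (primeBelowVal_isPrime M A).ne_top (absNorm_eq_one_iff.mp h)
  have hj1 : j ≠ 0 := by
    rintro rfl
    exact hne1 (by rw [hj, pow_zero])
  have hj2 : j < 2 := by
    by_contra h
    push Not at h
    have h1 : ℓ ^ 2 ≤ ℓ ^ j := Nat.pow_le_pow_right hℓ.pos h
    have h2 : ℓ ^ j ≤ ℓ := by rw [← hj, habs]; exact hcard_le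
    nlinarith
  have : j = 1 := by omega
  rw [hj, this, pow_one]

/-- **unramified**: if all inertia groups above `ℓ` fix `M`, then `ℓ` is unramified in `M`. -/
theorem ramificationIdx_eq_one_of_inertia_fix [IsGalois ℚ M] {ℓ : ℕ} (hℓ : ℓ.Prime)
    (hin : ∀ A : ValuationSubring Qb, A.LiesOverPrime ℓ →
      ∀ τ ∈ A.inertiaSubgroupIn ℚ, ∀ x ∈ M, τ x = x)
    (q : HeightOneSpectrum (𝓞 ℚ)) (hq : (ℓ : 𝓞 ℚ) ∈ q.asIdeal) :
    ∀ Q : Ideal (𝓞 M), Q.IsPrime → Q.LiesOver q.asIdeal → Q.ramificationIdx (𝓞 ℚ) = 1 := by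
  rw [← unramAt_iff_ramificationIdx]
  intro Q hQ hQq
  rw [eq_bot_iff]
  intro σ hσ
  rw [Subgroup.mem_bot]
  have hℓQ : (ℓ : 𝓞 M) ∈ Q := by
    have h1 : (ℓ : 𝓞 ℚ) ∈ Q.under (𝓞 ℚ) := by rw [← Q.over_def q.asIdeal]; exact hq
    rw [Ideal.under_def, Ideal.mem_comap, map_natCast] at h1
    exact h1
  have hσin : ∀ x : 𝓞 M, σ • x - x ∈ Q := fun x => (AddSubgroup.mem_inertia.mp hσ) x
  obtain ⟨A, τ, hA, hτ, hτσ⟩ := exists_inertia_lift M Q hℓ.ne_zero hℓQ σ hσin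
  have hτM : ∀ x : M, τ (x : Qb) = ((σ x : M) : Qb) := by
    intro x
    have h1 := AlgEquiv.restrictNormal_commutes τ M x
    have h2 : AlgEquiv.restrictNormal τ M = σ := hτσ
    rw [h2] at h1
    exact h1.symm
  ext x
  have h1 := hτM x
  rw [hin A hA τ hτ (x : Qb) x.2] at h1
  exact h1.symm

/-- **Frobenius fixes `M` + unramified ⇒ splits completely.** -/
theorem splitsIn_of_isFrobeniusAt [IsGalois ℚ M] {ℓ : ℕ} (hℓ : ℓ.Prime)
    (hin : ∀ A : ValuationSubring Qb, A.LiesOverPrime ℓ →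
      ∀ τ ∈ A.inertiaSubgroupIn ℚ, ∀ x ∈ M, τ x = x)
    {A : ValuationSubring Qb} (hA : A.LiesOverPrime ℓ) {σ : Qb ≃ₐ[ℚ] Qb}
    (hσ : A.IsFrobeniusAt σ ℓ) (hfix : ∀ x ∈ M, σ x = x)
    (q : HeightOneSpectrum (𝓞 ℚ)) (hq : (ℓ : 𝓞 ℚ) ∈ q.asIdeal) :
    SplitsIn (F := ℚ) M q := by
  refine ⟨ramificationIdx_eq_one_of_inertia_fix M hℓ hin q hq, ?_⟩
  have hmem : (ℓ : 𝓞 M) ∈ primeBelowVal M A := natCast_mem_primeBelowVal M hA
  have hne : primeBelowVal M A ≠ ⊥ := by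
    intro h
    rw [h, Ideal.mem_bot] at hmem
    exact hℓ.ne_zero (by exact_mod_cast hmem)
  refine ⟨⟨primeBelowVal M A, inferInstance, hne⟩, ?_, ?_⟩
  · -- lies over `q`
    refine ⟨?_⟩
    have hqmax : q.asIdeal.IsMaximal := q.isMaximal
    have hle : q.asIdeal ≤ (primeBelowVal M A).under (𝓞 ℚ) := by
      have h1 : span {(ℓ : 𝓞 ℚ)} ≤ (primeBelowVal M A).under (𝓞 ℚ) := by
        rw [span_singleton_le_iff_mem, Ideal.under_def, Ideal.mem_comap, map_natCast]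
        exact hmem
      have h2 : span {(ℓ : 𝓞 ℚ)} = q.asIdeal := span_natCast_eq_asIdeal q hℓ hq
      rw [← h2]; exact h1
    have hne_top : (primeBelowVal M A).under (𝓞 ℚ) ≠ ⊤ :=
      (Ideal.IsPrime.under (𝓞 ℚ) (primeBelowVal M A)).ne_top
    exact hqmax.eq_of_le hne_top hle
  · rw [absNorm_primeBelowVal M hℓ hA hσ hfix, absNorm_eq_of_natCast_mem q hℓ hq]

end Field

/-- **The covering inequality, Frobenius form.**  `M₁, M₂ ≤ Qbar` finite Galois over `ℚ`; outside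
a finite set `S₀` of primes both are unramified (all inertia groups act trivially) and some
Frobenius element at `ℓ` fixes `M₁` or fixes `M₂`.  Then `1 ≤ 1/[M₁:ℚ] + 1/[M₂:ℚ]`. -/
theorem one_le_inv_add_inv_of_frobenius_cover
    (M₁ M₂ : IntermediateField ℚ Qb) [FiniteDimensional ℚ M₁] [IsGalois ℚ M₁]
    [FiniteDimensional ℚ M₂] [IsGalois ℚ M₂] (S₀ : Finset ℕ)
    (hin₁ : ∀ ℓ : ℕ, ℓ.Prime → ℓ ∉ S₀ → ∀ A : ValuationSubring Qb, A.LiesOverPrime ℓ →
      ∀ τ ∈ A.inertiaSubgroupIn ℚ, ∀ x ∈ M₁, τ x = x)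
    (hin₂ : ∀ ℓ : ℕ, ℓ.Prime → ℓ ∉ S₀ → ∀ A : ValuationSubring Qb, A.LiesOverPrime ℓ →
      ∀ τ ∈ A.inertiaSubgroupIn ℚ, ∀ x ∈ M₂, τ x = x)
    (hfrob : ∀ ℓ : ℕ, ℓ.Prime → ℓ ∉ S₀ → ∃ (A : ValuationSubring Qb) (σ : Qb ≃ₐ[ℚ] Qb),
      A.LiesOverPrime ℓ ∧ A.IsFrobeniusAt σ ℓ ∧
        ((∀ x ∈ M₁, σ x = x) ∨ (∀ x ∈ M₂, σ x = x))) :
    (1 : ℝ) ≤ 1 / (Module.finrank ℚ M₁ : ℝ) + 1 / (Module.finrank ℚ M₂ : ℝ) := by
  classical
  have hfin : {q : HeightOneSpectrum (𝓞 ℚ) | absNorm q.asIdeal ∈ S₀}.Finite :=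
    Set.Finite.preimage (absNorm_asIdeal_injective.injOn) S₀.finite_toSet
  refine one_le_inv_add_inv_of_cover (F := ℚ) M₁ M₂ hfin.toFinset fun q hq => ?_
  have hq' : absNorm q.asIdeal ∉ S₀ := fun h => hq ((Set.Finite.mem_toFinset _).mpr h)
  obtain ⟨ℓ, hℓ, hqℓ⟩ := exists_prime_natCast_mem_asIdeal q
  rw [absNorm_eq_of_natCast_mem q hℓ hqℓ] at hq'
  have hq := hq'
  obtain ⟨A, σ, hA, hσ, h | h⟩ := hfrob ℓ hℓ hq
  · exact Or.inl (splitsIn_of_isFrobeniusAt M₁ hℓ (hin₁ ℓ hℓ hq) hA hσ h q hqℓ)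
  · exact Or.inr (splitsIn_of_isFrobeniusAt M₂ hℓ (hin₂ ℓ hℓ hq) hA hσ h q hqℓ)

end Fermat.Agent.S29lib.X
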