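/-
GalRep long shot, block (6), brick (6B') (helper4): the covering inequality for two OPEN NORMAL
subgroups `N₁, N₂` of `G_ℚ`: if outside a finite set of primes all inertia groups lie in `N₁ ⊓ N₂`
and some Frobenius element lies in `N₁` or in `N₂`, and `N₁ ≠ ⊤`, then `N₂` has index `≤ 2`,
in the elementwise form `σ ∈ N₂ ∨ τ ∈ N₂ ∨ σ τ⁻¹ ∈ N₂`.
-/
import Fermat.Agent.S29lib.X.FrobSplit

set_option autoImplicit false
set_option linter.style.haveILetI false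
set_option linter.unusedSectionVars false

open NumberField IsDedekindDomain Ideal

noncomputable section

namespace Fermat.Agent.S29lib.X

open Fermat.Agent.ExtVan.InertiaLift

/-- the absolute Galois group of `ℚ`. -/
abbrev GQ : Type := Qb ≃ₐ[ℚ] Qb

instance isGalois_Qb : IsGalois ℚ Qb := by
  have h : (AlgebraicClosure.instAlgebra ℚ : Algebra ℚ Qb) = DivisionRing.toRatAlgebra :=
    Subsingleton.elim _ _
  rw [← h]
  exact IsAlgClosure.isGalois ℚ _

section OpenNormal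

variable (N : Subgroup GQ) (hN : IsOpen (N : Set GQ))

/-- the fixed field of an open subgroup. -/
def fixedFieldOf : IntermediateField ℚ Qb := IntermediateField.fixedField N

include hN in
theorem fixingSubgroup_fixedFieldOf : (fixedFieldOf N).fixingSubgroup = N :=
  InfiniteGalois.fixingSubgroup_fixedField ⟨N, Subgroup.isClosed_of_isOpen _ hN⟩

include hN in
theorem finiteDimensional_fixedFieldOf : FiniteDimensional ℚ (fixedFieldOf N) :=
  (InfiniteGalois.isOpen_iff_finite (fixedFieldOf N)).mp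
    (by rw [fixingSubgroup_fixedFieldOf N hN]; exact hN)

include hN in
theorem isGalois_fixedFieldOf [N.Normal] : IsGalois ℚ (fixedFieldOf N) := by
  change @IsGalois ℚ _ (fixedFieldOf N) _ (IntermediateField.algebra' _)
  rw [← InfiniteGalois.normal_iff_isGalois, fixingSubgroup_fixedFieldOf N hN]
  infer_instance

include hN in
theorem forall_mem_fixedFieldOf_iff (σ : GQ) : (∀ x ∈ fixedFieldOf N, σ x = x) ↔ σ ∈ N := by
  rw [← IntermediateField.mem_fixingSubgroup_iff, fixingSubgroup_fixedFieldOf N hN]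

end OpenNormal

/-- **Covering inequality, group form.** -/
theorem index_le_two_of_frobenius_cover
    (N₁ N₂ : Subgroup GQ) [N₁.Normal] [N₂.Normal]
    (hN₁ : IsOpen (N₁ : Set GQ)) (hN₂ : IsOpen (N₂ : Set GQ)) (S₀ : Finset ℕ)
    (hin : ∀ ℓ : ℕ, ℓ.Prime → ℓ ∉ S₀ → ∀ A : ValuationSubring Qb, A.LiesOverPrime ℓ →
      ∀ τ ∈ A.inertiaSubgroupIn ℚ, τ ∈ N₁ ∧ τ ∈ N₂)
    (hfrob : ∀ ℓ : ℕ, ℓ.Prime → ℓ ∉ S₀ → ∃ (A : ValuationSubring Qb) (σ : GQ),
      A.LiesOverPrime ℓ ∧ A.IsFrobeniusAt σ ℓ ∧ (σ ∈ N₁ ∨ σ ∈ N₂))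
    (hne : N₁ ≠ ⊤) :
    ∀ σ τ : GQ, σ ∈ N₂ ∨ τ ∈ N₂ ∨ σ * τ⁻¹ ∈ N₂ := by
  classical
  set M₁ := fixedFieldOf N₁ with hM₁
  set M₂ := fixedFieldOf N₂ with hM₂
  haveI : FiniteDimensional ℚ M₁ := finiteDimensional_fixedFieldOf N₁ hN₁
  haveI : FiniteDimensional ℚ M₂ := finiteDimensional_fixedFieldOf N₂ hN₂
  haveI : IsGalois ℚ M₁ := isGalois_fixedFieldOf N₁ hN₁
  haveI : IsGalois ℚ M₂ := isGalois_fixedFieldOf N₂ hN₂
  have hcover := one_le_inv_add_inv_of_frobenius_cover M₁ M₂ S₀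
    (fun ℓ hℓ hℓS A hA τ hτ =>
      (forall_mem_fixedFieldOf_iff N₁ hN₁ τ).mpr (hin ℓ hℓ hℓS A hA τ hτ).1)
    (fun ℓ hℓ hℓS A hA τ hτ =>
      (forall_mem_fixedFieldOf_iff N₂ hN₂ τ).mpr (hin ℓ hℓ hℓS A hA τ hτ).2)
    (fun ℓ hℓ hℓS => by
      obtain ⟨A, σ, hA, hσ, h⟩ := hfrob ℓ hℓ hℓS
      exact ⟨A, σ, hA, hσ, h.imp (forall_mem_fixedFieldOf_iff N₁ hN₁ σ).mpr
        (forall_mem_fixedFieldOf_iff N₂ hN₂ σ).mpr⟩)
  -- `[M₁ : ℚ] ≥ 2`
  have hn₁ : 2 ≤ Module.finrank ℚ M₁ := by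
    by_contra h
    have h1 : Module.finrank ℚ M₁ = 1 := by
      have := Module.finrank_pos (R := ℚ) (M := M₁)
      omega
    have h2 : M₁ = ⊥ := IntermediateField.finrank_eq_one_iff.mp h1
    apply hne
    rw [← fixingSubgroup_fixedFieldOf N₁ hN₁, ← hM₁, h2, IntermediateField.fixingSubgroup_bot]
  -- `[M₂ : ℚ] ≤ 2`
  have hn₂ : Module.finrank ℚ M₂ ≤ 2 := by
    have hpos₂ : (0 : ℝ) < (Module.finrank ℚ M₂ : ℝ) := by
      exact_mod_cast Module.finrank_pos (R := ℚ) (M := M₂)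
    have h1 : (1 : ℝ) / (Module.finrank ℚ M₁ : ℝ) ≤ 1 / 2 := by
      apply one_div_le_one_div_of_le (by norm_num)
      exact_mod_cast hn₁
    have h2 : (1 : ℝ) / 2 ≤ 1 / (Module.finrank ℚ M₂ : ℝ) := by linarith
    have h3 : (Module.finrank ℚ M₂ : ℝ) ≤ 2 := by
      rw [le_div_iff₀ hpos₂] at h2
      linarith
    exact_mod_cast h3
  have hcard : Nat.card (M₂ ≃ₐ[ℚ] M₂) ≤ 2 := by
    rw [IsGalois.card_aut_eq_finrank]
    exact hn₂
  intro σ τ
  by_contra hcon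
  push Not at hcon
  obtain ⟨h1, h2, h3⟩ := hcon
  -- three distinct elements of `Gal(M₂/ℚ)`
  have hker : ∀ ρ : GQ, AlgEquiv.restrictNormalHom M₂ ρ = 1 ↔ ρ ∈ N₂ := by
    intro ρ
    rw [← forall_mem_fixedFieldOf_iff N₂ hN₂ ρ]
    constructor
    · intro h x hx
      have h1 := AlgEquiv.restrictNormal_commutes ρ M₂ ⟨x, hx⟩
      have h2 : AlgEquiv.restrictNormal ρ M₂ = 1 := h
      rw [h2] at h1
      exact h1.symm
    · intro h
      have h2 : AlgEquiv.restrictNormal ρ M₂ = 1 := by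
        ext y
        have h1 := AlgEquiv.restrictNormal_commutes ρ M₂ y
        have h3 : ρ ((algebraMap M₂ Qb) y) = (y : Qb) := h (y : Qb) y.2
        rw [h3] at h1
        exact h1
      exact h2
  haveI : Fintype (M₂ ≃ₐ[ℚ] M₂) := Fintype.ofFinite _
  have h3lt : 2 < Fintype.card (M₂ ≃ₐ[ℚ] M₂) := by
    rw [Fintype.two_lt_card_iff]
    refine ⟨1, AlgEquiv.restrictNormalHom M₂ σ, AlgEquiv.restrictNormalHom M₂ τ, ?_, ?_, ?_⟩
    · exact fun h => h1 ((hker σ).mp h.symm)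
    · exact fun h => h2 ((hker τ).mp h.symm)
    · intro h
      apply h3
      rw [← hker, map_mul, map_inv, h, mul_inv_cancel]
  rw [← Nat.card_eq_fintype_card] at h3lt
  omega

end Fermat.Agent.S29lib.X
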