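/-
GalRep long shot, block X (helper4): the mod `p` cyclotomic character at Frobenius and inertia
elements (valuation-subring form of the prelude), and its image in a field `k₀` of
characteristic `p`.
-/
import Fermat.Agent.ExtVan.BridgeGalois
import Fermat.Agent.S29lib.X.GroupForm

set_option autoImplicit false
set_option linter.style.haveILetI false
set_option linter.unusedSectionVars false

noncomputable section

namespace Fermat.Agent.S29lib.X

open Fermat.Agent.ExtVan.InertiaLift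

/-- integral elements of `Qb` lie in every valuation subring. -/
theorem mem_valuationSubring_of_isIntegral_int (A : ValuationSubring Qb) {x : Qb}
    (hx : IsIntegral ℤ x) : x ∈ A := by
  obtain ⟨q, hmonic, hq⟩ := hx
  let φ : ℤ →+* A := Int.castRingHom A
  have hint : IsIntegral A x := by
    refine ⟨q.map φ, hmonic.map φ, ?_⟩
    rw [Polynomial.eval₂_map]
    have : (algebraMap A Qb).comp φ = algebraMap ℤ Qb := RingHom.ext_int _ _
    rw [this]
    exact hq
  obtain ⟨y, hy⟩ := (IsIntegrallyClosed.isIntegral_iff (R := A) (K := Qb)).mp hint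
  rw [← hy]
  exact y.2

variable {p : ℕ} [Fact p.Prime]

/-- **Key lemma.**  If `σ` lies in the decomposition group of `A | ℓ`, `ℓ ≠ p`, and acts on the
residue field of `A` by `x ↦ x ^ m`, then `χ_p(σ) = m` in `ZMod p`. -/
theorem chi_eq_of_residue_action {A : ValuationSubring Qb} {ℓ : ℕ} (hℓ : ℓ.Prime) (hℓp : ℓ ≠ p)
    (hA : A.LiesOverPrime ℓ) (σ : GQ) (hdec : σ ∈ A.decompositionSubgroup ℚ) (m : ℕ)
    (hact : ∀ x : IsLocalRing.ResidueField A,
      (⟨σ, hdec⟩ : A.decompositionSubgroup ℚ) • x = x ^ m) :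
    Fermat.Agent.ExtVan.chi p σ = (m : ZMod p) := by
  have hp : p.Prime := Fact.out
  haveI : NeZero p := ⟨hp.ne_zero⟩
  set ζ : Qb := Fermat.Agent.ExtVan.zetaQ p with hζdef
  have hζ : IsPrimitiveRoot ζ p := Fermat.Agent.ExtVan.zetaQ_spec p
  have hζA : ζ ∈ A := by
    apply mem_valuationSubring_of_isIntegral_int
    exact ⟨Polynomial.X ^ p - 1, Polynomial.monic_X_pow_sub_C 1 hp.ne_zero, by
      simp [hζ.pow_eq_one]⟩
  set a : A := ⟨ζ, hζA⟩ with ha
  set z : IsLocalRing.ResidueField A := IsLocalRing.residue A a with hz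
  -- `z ^ p = 1`
  have hzp : z ^ p = 1 := by
    rw [hz, ← map_pow]
    have : a ^ p = 1 := Subtype.ext (by simpa using hζ.pow_eq_one)
    rw [this, map_one]
  -- `ℓ = 0` in the residue field
  have hℓ0 : (ℓ : IsLocalRing.ResidueField A) = 0 := by
    have h1 : ((ℓ : A) : Qb) ∈ A.nonunits := by
      have h0 : (ℓ : Qb) ∈ A.nonunits := hA
      simpa using h0
    have h2 : (ℓ : A) ∈ IsLocalRing.maximalIdeal A := ValuationSubring.coe_mem_nonunits_iff.mp h1
    have h3 := (IsLocalRing.residue_eq_zero_iff (ℓ : A)).mpr h2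
    simpa using h3
  -- `z ≠ 1`
  have hz1 : z ≠ 1 := by
    intro h1
    have hsum : ∑ i ∈ Finset.range p, ζ ^ i = 0 := hζ.geom_sum_eq_zero hp.one_lt
    have hsumA : ∑ i ∈ Finset.range p, a ^ i = 0 := by
      apply Subtype.ext
      simpa using hsum
    have hsumz : ∑ i ∈ Finset.range p, z ^ i = 0 := by
      rw [hz]
      simp only [← map_pow, ← map_sum, hsumA, map_zero]
    rw [h1] at hsumz
    simp only [one_pow, Finset.sum_const, Finset.card_range, nsmul_eq_mul, mul_one] at hsumz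
    -- `p = 0` and `ℓ = 0` in a field: contradiction with coprimality
    have hcop : Nat.Coprime p ℓ := (Nat.coprime_primes hp hℓ).mpr (Ne.symm hℓp)
    have hone : ((1 : ℕ) : IsLocalRing.ResidueField A) = 0 := by
      have hg := Nat.gcd_eq_gcd_ab p ℓ
      rw [hcop.gcd_eq_one] at hg
      have : ((1 : ℤ) : IsLocalRing.ResidueField A) = 0 := by
        have h := congrArg (fun n : ℤ => (n : IsLocalRing.ResidueField A)) hg
        simp only [Nat.cast_one, Int.cast_add, Int.cast_mul, Int.cast_natCast] at h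
        rw [hsumz, hℓ0, zero_mul, zero_mul, add_zero] at h
        simpa using h
      simpa using this
    simp at hone
  have hord : orderOf z = p := orderOf_eq_prime hzp hz1
  -- the action of `σ` on `z`
  have hσz : (⟨σ, hdec⟩ : A.decompositionSubgroup ℚ) • z = z ^ (Fermat.Agent.ExtVan.chi p σ).val := by
    rw [hz, ← IsLocalRing.ResidueField.residue_smul, ← map_pow]
    congr 1
    apply Subtype.ext
    change σ ζ = ((a ^ (Fermat.Agent.ExtVan.chi p σ).val : A) : Qb)
    rw [Fermat.Agent.ExtVan.chi_spec σ hζ.pow_eq_one]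
    simp [ha]
  have hpow : z ^ (Fermat.Agent.ExtVan.chi p σ).val = z ^ m := by rw [← hσz, hact z]
  have hmod : (Fermat.Agent.ExtVan.chi p σ).val ≡ m [MOD p] := by
    have hprim : IsPrimitiveRoot z p := by
      have := IsPrimitiveRoot.orderOf z
      rwa [hord] at this
    have hgen : ∀ n : ℕ, z ^ (n % p) = z ^ n := by
      intro n
      have := pow_mod_orderOf z n
      rwa [hord] at this
    have h1 := hgen (Fermat.Agent.ExtVan.chi p σ).val
    have h2 := hgen m
    exact hprim.pow_inj (Nat.mod_lt _ (NeZero.pos p)) (Nat.mod_lt _ (NeZero.pos p))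
      (h1.trans (hpow.trans h2.symm))
  have h3 : (((Fermat.Agent.ExtVan.chi p σ).val : ℕ) : ZMod p) = ((m : ℕ) : ZMod p) :=
    (ZMod.natCast_eq_natCast_iff _ _ _).mpr hmod
  rw [ZMod.natCast_val, ZMod.cast_id] at h3
  exact h3

/-- `χ_p(Frob_ℓ) = ℓ`. -/
theorem chi_of_isFrobeniusAt {A : ValuationSubring Qb} {ℓ : ℕ} (hℓ : ℓ.Prime) (hℓp : ℓ ≠ p)
    (hA : A.LiesOverPrime ℓ) {σ : GQ} (hσ : A.IsFrobeniusAt σ ℓ) :
    Fermat.Agent.ExtVan.chi p σ = (ℓ : ZMod p) := by
  obtain ⟨hdec, hfrob⟩ := hσ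
  exact chi_eq_of_residue_action hℓ hℓp hA σ hdec ℓ hfrob

/-- `χ_p` is trivial on inertia at `ℓ ≠ p`. -/
theorem chi_of_mem_inertia {A : ValuationSubring Qb} {ℓ : ℕ} (hℓ : ℓ.Prime) (hℓp : ℓ ≠ p)
    (hA : A.LiesOverPrime ℓ) {σ : GQ} (hσ : σ ∈ A.inertiaSubgroupIn ℚ) :
    Fermat.Agent.ExtVan.chi p σ = 1 := by
  obtain ⟨σ', hσ', rfl⟩ := hσ
  have hker : MulSemiringAction.toRingAut (A.decompositionSubgroup ℚ)
      (IsLocalRing.ResidueField A) σ' = 1 := hσ'
  have hact : ∀ x : IsLocalRing.ResidueField A,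
      (⟨(σ' : GQ), σ'.2⟩ : A.decompositionSubgroup ℚ) • x = x ^ 1 := by
    intro x
    rw [pow_one]
    have := RingEquiv.congr_fun hker x
    simpa using this
  have := chi_eq_of_residue_action hℓ hℓp hA (σ' : GQ) σ'.2 1 hact
  simpa using this

section Field

variable (p) (k₀ : Type) [Field k₀] [CharP k₀ p]

/-- the mod `p` cyclotomic character with values in `k₀ˣ`. -/
def chiBar : GQ →* k₀ˣ :=
  (Units.map ((ZMod.castHom (dvd_refl p) k₀ : ZMod p →+* k₀) : ZMod p →* k₀)).comp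
    (ExtCitation.cycloChar p)

theorem coe_chiBar (σ : GQ) :
    ((chiBar p k₀ σ : k₀ˣ) : k₀) = ZMod.castHom (dvd_refl p) k₀ (Fermat.Agent.ExtVan.chi p σ) :=
  rfl

variable {p k₀}

theorem chiBar_of_isFrobeniusAt {A : ValuationSubring Qb} {ℓ : ℕ} (hℓ : ℓ.Prime) (hℓp : ℓ ≠ p)
    (hA : A.LiesOverPrime ℓ) {σ : GQ} (hσ : A.IsFrobeniusAt σ ℓ) :
    ((chiBar p k₀ σ : k₀ˣ) : k₀) = (ℓ : k₀) := by
  rw [coe_chiBar, chi_of_isFrobeniusAt hℓ hℓp hA hσ, map_natCast]

theorem chiBar_of_mem_inertia {A : ValuationSubring Qb} {ℓ : ℕ} (hℓ : ℓ.Prime) (hℓp : ℓ ≠ p)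
    (hA : A.LiesOverPrime ℓ) {σ : GQ} (hσ : σ ∈ A.inertiaSubgroupIn ℚ) :
    chiBar p k₀ σ = 1 := by
  apply Units.ext
  rw [coe_chiBar, chi_of_mem_inertia hℓ hℓp hA hσ, map_one, Units.val_one]

theorem chiBar_of_fixes_cycloField {σ : GQ}
    (hσ : ∀ x ∈ Fermat.Agent.ExtVan.cycloField p, σ x = x) : chiBar p k₀ σ = 1 := by
  apply Units.ext
  rw [coe_chiBar, (Fermat.Agent.ExtVan.forall_mem_cycloField_iff σ).mp hσ, map_one, Units.val_one]

end Field

end Fermat.Agent.S29lib.X
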