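/-
GalRep long shot, block X (helper4): linear algebra in dimension two.
* `charpoly_eq_of_finrank_two` : `charpoly T = X² - tr(T) X + det(T)`;
* `quadratic_dichotomy` : an endomorphism killed by `X² - aX + b` either has trace `a` and
  determinant `b`, or is a scalar `α` with `α² - aα + b = 0`;
* `exists_common_eigenvector` : a commuting family over an algebraically closed field has a common
  eigenvector.
-/
import Mathlib

set_option autoImplicit false
set_option linter.style.haveILetI false
set_option linter.unusedSectionVars false

noncomputable section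

namespace Fermat.Agent.S29lib.X

open Polynomial

variable {k : Type*} [Field k] {W : Type*} [AddCommGroup W] [Module k W]

section Charpoly

variable [Module.Finite k W] (h2 : Module.finrank k W = 2)

include h2 in
theorem nontrivial_of_finrank_two : Nontrivial W := by
  apply Module.nontrivial_of_finrank_pos (R := k)
  rw [h2]; norm_num

include h2 in
/-- in dimension two, `charpoly T = X² - tr(T) X + det(T)`. -/
theorem charpoly_eq_of_finrank_two (T : Module.End k W) :
    LinearMap.charpoly T = X ^ 2 - C (LinearMap.trace k W T) * X + C (LinearMap.det T) := by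
  let b : Module.Basis (Fin 2) k W := Module.finBasisOfFinrankEq k W h2
  rw [← LinearMap.charpoly_toMatrix T b, Matrix.charpoly_fin_two,
    LinearMap.trace_eq_matrix_trace k b T, LinearMap.det_toMatrix b T]

include h2 in
/-- Cayley–Hamilton in dimension two. -/
theorem cayley_hamilton_two (T : Module.End k W) :
    T * T - LinearMap.trace k W T • T + LinearMap.det T • (1 : Module.End k W) = 0 := by
  have h := LinearMap.aeval_self_charpoly T
  rw [charpoly_eq_of_finrank_two h2 T, map_add, map_sub, map_mul, map_pow, aeval_X, aeval_C,
    aeval_C, pow_two, Algebra.algebraMap_eq_smul_one, Algebra.algebraMap_eq_smul_one,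
    smul_mul_assoc, one_mul] at h
  exact h

include h2 in
theorem smul_one_eq_zero_iff (c : k) : c • (1 : Module.End k W) = 0 ↔ c = 0 := by
  haveI := nontrivial_of_finrank_two h2
  constructor
  · intro h
    obtain ⟨w, hw⟩ := exists_ne (0 : W)
    have h1 := LinearMap.congr_fun h w
    simp only [LinearMap.smul_apply, Module.End.one_apply, LinearMap.zero_apply] at h1
    exact (smul_eq_zero.mp h1).resolve_right hw
  · rintro rfl; simp

include h2 in
/-- **Dichotomy.** -/
theorem quadratic_dichotomy (T : Module.End k W) (a b : k)
    (hT : T * T - a • T + b • (1 : Module.End k W) = 0) :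
    (LinearMap.trace k W T = a ∧ LinearMap.det T = b) ∨
      ∃ α : k, T = α • (1 : Module.End k W) ∧ α * α - a * α + b = 0 := by
  have hCH := cayley_hamilton_two h2 T
  set t := LinearMap.trace k W T with ht
  set d := LinearMap.det T with hd
  -- `(t - a) • T = (d - b) • 1`
  have hlin : (t - a) • T = (d - b) • (1 : Module.End k W) := by
    have : (t - a) • T - (d - b) • (1 : Module.End k W) =
        (T * T - a • T + b • (1 : Module.End k W)) - (T * T - t • T + d • (1 : Module.End k W)) := by
      simp only [sub_smul]; abel
    rw [← sub_eq_zero, this, hT, hCH, sub_zero]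
  by_cases hta : t = a
  · left
    refine ⟨hta, ?_⟩
    rw [hta, sub_self, zero_smul] at hlin
    have := (smul_one_eq_zero_iff h2 (d - b)).mp hlin.symm
    exact sub_eq_zero.mp this
  · right
    have hne : t - a ≠ 0 := sub_ne_zero.mpr hta
    set α : k := (d - b) / (t - a) with hα
    have hTα : T = α • (1 : Module.End k W) := by
      have : T = (t - a)⁻¹ • ((t - a) • T) := by rw [smul_smul, inv_mul_cancel₀ hne, one_smul]
      rw [this, hlin, smul_smul, hα, div_eq_inv_mul]
    refine ⟨α, hTα, ?_⟩
    rw [hTα] at hT
    have h3 : (α * α - a * α + b) • (1 : Module.End k W) = 0 := by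
      rw [← hT]
      simp only [mul_smul_comm, mul_one, smul_smul, add_smul, sub_smul]
    exact (smul_one_eq_zero_iff h2 _).mp h3

include h2 in
theorem trace_smul_one (α : k) : LinearMap.trace k W (α • (1 : Module.End k W)) = 2 * α := by
  rw [map_smul, LinearMap.trace_one, h2, smul_eq_mul, mul_comm]
  norm_num

include h2 in
theorem det_smul_one (α : k) : LinearMap.det (α • (1 : Module.End k W)) = α * α := by
  rw [LinearMap.det_smul, h2, map_one, mul_one, pow_two]

end Charpoly

section Eigen

variable [IsAlgClosed k] [Module.Finite k W] (h2 : Module.finrank k W = 2)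

include h2 in
/-- a commuting family of endomorphisms of a plane over an algebraically closed field has a
common eigenvector. -/
theorem exists_common_eigenvector {ι : Type*} (f : ι → Module.End k W)
    (hcomm : ∀ i j, Commute (f i) (f j)) :
    ∃ v : W, v ≠ 0 ∧ ∀ i, ∃ c : k, f i v = c • v := by
  haveI := nontrivial_of_finrank_two h2
  by_cases hs : ∀ i, ∃ c : k, f i = c • (1 : Module.End k W)
  · obtain ⟨v, hv⟩ := exists_ne (0 : W)
    refine ⟨v, hv, fun i => ?_⟩
    obtain ⟨c, hc⟩ := hs i
    exact ⟨c, by rw [hc]; rfl⟩
  · push Not at hs
    obtain ⟨τ, hτ⟩ := hs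
    set T := f τ with hT
    obtain ⟨μ, hμ⟩ := Module.End.exists_eigenvalue T
    obtain ⟨v, hv⟩ := hμ.exists_hasEigenvector
    have hvE : v ∈ Module.End.eigenspace T μ := hv.1
    have hv0 : v ≠ 0 := hv.2
    set E := Module.End.eigenspace T μ with hE
    have hEtop : E ≠ ⊤ := by
      intro htop
      apply hτ μ
      ext w
      have hw : w ∈ E := by rw [htop]; exact Submodule.mem_top
      rw [hE, Module.End.mem_eigenspace_iff] at hw
      rw [hw]; rfl
    have hEbot : E ≠ ⊥ := fun h => hv0 (by rw [h, Submodule.mem_bot] at hvE; exact hvE)
    have h1 : Module.finrank k E = 1 := by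
      have hpos : 0 < Module.finrank k E :=
        Module.finrank_pos_iff_exists_ne_zero.mpr
          ⟨⟨v, hvE⟩, fun h => hv0 (congrArg Subtype.val h)⟩
      have hlt : Module.finrank k E < Module.finrank k W := Submodule.finrank_lt hEtop
      rw [h2] at hlt
      omega
    have hspan := (finrank_eq_one_iff_of_nonzero' (⟨v, hvE⟩ : E)
      (by intro h; exact hv0 (congrArg Subtype.val h))).mp h1
    refine ⟨v, hv0, fun i => ?_⟩
    have hmem : f i v ∈ E := by
      rw [hE, Module.End.mem_eigenspace_iff]
      have hc := hcomm τ i
      have : T (f i v) = f i (T v) := by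
        have := LinearMap.congr_fun hc.eq v
        simpa [Module.End.mul_apply] using this
      rw [this, Module.End.mem_eigenspace_iff.mp hvE, map_smul]
    obtain ⟨c, hc⟩ := hspan ⟨f i v, hmem⟩
    exact ⟨c, (congrArg Subtype.val hc).symm⟩

end Eigen

end Fermat.Agent.S29lib.X
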