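/-
GalRep long shot, block X (helper4): from a `ResidualPiece` (2-dimensional, every Frobenius killed
by `X² - ā_ℓ X + ℓ`) to a residual representation with EXACT Frobenius characteristic polynomials.
Either all Frobenius charpolys are already right, or the density argument forces the image to be
abelian and `c₁ ⊕ χ̄_p c₁⁻¹` works.
-/
import Fermat.Agent.S29lib.Interface.Basic
import Fermat.Agent.S29lib.X.Cyclo
import Fermat.Agent.S29lib.X.TwoDim
import Fermat.Agent.Helper5.FrobExists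

set_option autoImplicit false
set_option linter.style.haveILetI false
set_option linter.unusedSectionVars false

noncomputable section

namespace Fermat.Agent.S29lib.X

open Polynomial Fermat.Agent.ExtVan.InertiaLift

section Scalar

variable {k : Type*} [Field k] {W : Type*} [AddCommGroup W] [Module k W]

/-- the elements acting by scalars. -/
def scalarSubgroup {G : Type*} [Group G] (ρ : G →* Module.End k W) : Subgroup G where
  carrier := {σ | ∃ c : k, ρ σ = c • (1 : Module.End k W)}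
  one_mem' := ⟨1, by rw [map_one, one_smul]⟩
  mul_mem' := by
    rintro σ τ ⟨c, hc⟩ ⟨d, hd⟩
    refine ⟨c * d, ?_⟩
    rw [map_mul, hc, hd, smul_mul_smul_comm, mul_one]
  inv_mem' := by
    rintro σ ⟨c, hc⟩
    refine ⟨c⁻¹, ?_⟩
    have h1 : ρ σ * ρ σ⁻¹ = 1 := by rw [← map_mul, mul_inv_cancel, map_one]
    rw [hc, smul_mul_assoc, one_mul] at h1
    by_cases hc0 : c = 0
    · -- then `1 = 0` in `End W`, everything is equal
      rw [hc0, zero_smul] at h1
      have hsub : ∀ T : Module.End k W, T = 0 := fun T => by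
        rw [← mul_one T, ← h1, mul_zero]
      rw [hsub (ρ σ⁻¹), hsub (c⁻¹ • (1 : Module.End k W))]
    · rw [← h1, smul_smul, inv_mul_cancel₀ hc0, one_smul]

theorem mem_scalarSubgroup {G : Type*} [Group G] (ρ : G →* Module.End k W) (σ : G) :
    σ ∈ scalarSubgroup ρ ↔ ∃ c : k, ρ σ = c • (1 : Module.End k W) := Iff.rfl

instance scalarSubgroup_normal {G : Type*} [Group G] (ρ : G →* Module.End k W) :
    (scalarSubgroup ρ).Normal where
  conj_mem := by
    rintro σ ⟨c, hc⟩ τ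
    refine ⟨c, ?_⟩
    rw [map_mul, map_mul, hc, mul_smul_comm, mul_one, smul_mul_assoc, ← map_mul, mul_inv_cancel,
      map_one]

/-- two elements commute if one of them, or their quotient, is scalar. -/
theorem commute_of_scalar {G : Type*} [Group G] (ρ : G →* Module.End k W) (σ τ : G)
    (h : σ ∈ scalarSubgroup ρ ∨ τ ∈ scalarSubgroup ρ ∨ σ * τ⁻¹ ∈ scalarSubgroup ρ) :
    Commute (ρ σ) (ρ τ) := by
  rcases h with ⟨c, hc⟩ | ⟨c, hc⟩ | ⟨c, hc⟩
  · rw [hc]; exact (Commute.one_left _).smul_left c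
  · rw [hc]; exact (Commute.one_right _).smul_right c
  · have h1 : ρ σ = c • ρ τ := by
      have : ρ σ = ρ (σ * τ⁻¹) * ρ τ := by rw [← map_mul, inv_mul_cancel_right]
      rw [this, hc, smul_mul_assoc, one_mul]
    rw [h1]
    exact (Commute.refl _).smul_left c

end Scalar

section Piece

variable {N p : ℕ} [Fact p.Prime] {k₀ : Type} [Field k₀] [CharP k₀ p]
  {abar : Nat.Primes → k₀} (R : ResidualPiece N p k₀ abar)

instance residualPiece_finite : Module.Finite k₀ R.W :=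
  Module.finite_of_finrank_eq_succ R.finrank_eq

omit [CharP k₀ p] in
theorem ne_of_not_dvd {ℓ : ℕ} (h : ¬ ℓ ∣ N * p) : ℓ ≠ p := by
  rintro rfl
  exact h (dvd_mul_left _ _)

theorem natCast_ne_zero_of_not_dvd {ℓ : ℕ} (hℓ : ℓ.Prime) (h : ¬ ℓ ∣ N * p) : (ℓ : k₀) ≠ 0 := by
  intro h0
  have hp : p.Prime := Fact.out
  have hdvd : p ∣ ℓ := (CharP.cast_eq_zero_iff k₀ p ℓ).mp h0
  exact ne_of_not_dvd h ((Nat.prime_dvd_prime_iff_eq hp hℓ).mp hdvd).symm

/-- the determinant character. -/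
def detChar : GQ →* k₀ˣ :=
  ((LinearMap.det : Module.End k₀ R.W →* k₀).comp R.ρ).toHomUnits

theorem coe_detChar (σ : GQ) : ((detChar R σ : k₀ˣ) : k₀) = LinearMap.det (R.ρ σ) := rfl

/-- **Frobenius dichotomy.** -/
theorem frob_dichotomy {ℓ : ℕ} (hℓ : ℓ.Prime) (h : ¬ ℓ ∣ N * p)
    {A : ValuationSubring Qb} (hA : A.LiesOverPrime ℓ) {σ : GQ} (hσ : A.IsFrobeniusAt σ ℓ) :
    (LinearMap.charpoly (R.ρ σ) = X ^ 2 - C (abar ⟨ℓ, hℓ⟩) * X + C (ℓ : k₀) ∧
        LinearMap.det (R.ρ σ) = (ℓ : k₀)) ∨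
      ∃ α : k₀, R.ρ σ = α • (1 : Module.End k₀ R.W) ∧
        α * α - abar ⟨ℓ, hℓ⟩ * α + (ℓ : k₀) = 0 := by
  rcases quadratic_dichotomy R.finrank_eq (R.ρ σ) (abar ⟨ℓ, hℓ⟩) (ℓ : k₀)
    (R.frob ℓ hℓ h A hA σ hσ) with ⟨ht, hd⟩ | hα
  · left
    refine ⟨?_, hd⟩
    rw [charpoly_eq_of_finrank_two R.finrank_eq, ht, hd]
  · exact Or.inr hα

/-- **Bad case ⇒ abelian image.**  If some Frobenius has the wrong characteristic polynomial,
all `ρ σ` commute. -/
theorem commute_of_bad (hN : N ≠ 0) {ℓ₀ : ℕ} (hℓ₀ : ℓ₀.Prime) (h₀ : ¬ ℓ₀ ∣ N * p)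
    {A₀ : ValuationSubring Qb} (hA₀ : A₀.LiesOverPrime ℓ₀) {σ₀ : GQ}
    (hσ₀ : A₀.IsFrobeniusAt σ₀ ℓ₀)
    (hbad : LinearMap.charpoly (R.ρ σ₀) ≠ X ^ 2 - C (abar ⟨ℓ₀, hℓ₀⟩) * X + C (ℓ₀ : k₀)) :
    ∀ σ τ : GQ, Commute (R.ρ σ) (R.ρ τ) := by
  classical
  have hp : p.Prime := Fact.out
  -- structure of the bad Frobenius
  obtain ⟨α, hα, hquad⟩ : ∃ α : k₀, R.ρ σ₀ = α • (1 : Module.End k₀ R.W) ∧
      α * α - abar ⟨ℓ₀, hℓ₀⟩ * α + (ℓ₀ : k₀) = 0 := by
    rcases frob_dichotomy R hℓ₀ h₀ hA₀ hσ₀ with ⟨h1, -⟩ | h2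
    · exact absurd h1 hbad
    · exact h2
  have hℓ₀0 : (ℓ₀ : k₀) ≠ 0 := natCast_ne_zero_of_not_dvd hℓ₀ h₀
  have hdet₀ : LinearMap.det (R.ρ σ₀) = α * α := by rw [hα, det_smul_one R.finrank_eq]
  have hαℓ : α * α ≠ (ℓ₀ : k₀) := by
    intro hEq
    apply hbad
    have hα0 : α ≠ 0 := by
      rintro rfl
      rw [mul_zero] at hEq
      exact hℓ₀0 hEq.symm
    have hab : abar ⟨ℓ₀, hℓ₀⟩ = 2 * α := by
      have h1 : α * (2 * α - abar ⟨ℓ₀, hℓ₀⟩) = 0 := by
        have : α * (2 * α - abar ⟨ℓ₀, hℓ₀⟩) =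
            (α * α - abar ⟨ℓ₀, hℓ₀⟩ * α + (ℓ₀ : k₀)) + (α * α - (ℓ₀ : k₀)) := by ring
        rw [this, hquad, hEq, sub_self, add_zero]
      have := (mul_eq_zero.mp h1).resolve_left hα0
      exact (sub_eq_zero.mp this).symm
    rw [charpoly_eq_of_finrank_two R.finrank_eq, hα, trace_smul_one R.finrank_eq,
      det_smul_one R.finrank_eq, hab, hEq]
  -- the two subgroups
  set ψ : GQ →* k₀ˣ := detChar R / chiBar p k₀ with hψ
  set N₁ : Subgroup GQ := ψ.ker with hN₁
  set N₂ : Subgroup GQ := scalarSubgroup R.ρ with hN₂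
  have hmemN₁ : ∀ σ : GQ, σ ∈ N₁ ↔
      LinearMap.det (R.ρ σ) = ((chiBar p k₀ σ : k₀ˣ) : k₀) := by
    intro σ
    rw [hN₁, MonoidHom.mem_ker, hψ, MonoidHom.div_apply, div_eq_one, ← Units.val_inj,
      coe_detChar]
  -- openness
  obtain ⟨L₀, hL₀fd, hL₀⟩ := R.finiteLevel
  haveI := hL₀fd
  set L : IntermediateField ℚ Qb := L₀ ⊔ Fermat.Agent.ExtVan.cycloField p with hL
  haveI : FiniteDimensional ℚ L := IntermediateField.finiteDimensional_sup _ _
  have hLopen : IsOpen (L.fixingSubgroup : Set GQ) := L.fixingSubgroup_isOpen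
  have hLρ : ∀ σ : GQ, σ ∈ L.fixingSubgroup → R.ρ σ = 1 := by
    intro σ hσ
    apply hL₀
    intro x hx
    exact (IntermediateField.mem_fixingSubgroup_iff _ _).mp hσ x (le_sup_left (a := L₀) hx)
  have hLχ : ∀ σ : GQ, σ ∈ L.fixingSubgroup → chiBar p k₀ σ = 1 := by
    intro σ hσ
    apply chiBar_of_fixes_cycloField
    intro x hx
    exact (IntermediateField.mem_fixingSubgroup_iff _ _).mp hσ x
      (le_sup_right (b := Fermat.Agent.ExtVan.cycloField p) hx)
  have hN₁open : IsOpen (N₁ : Set GQ) := by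
    refine Subgroup.isOpen_mono (H₁ := L.fixingSubgroup) ?_ hLopen
    intro σ hσ
    rw [hmemN₁, hLρ σ hσ, hLχ σ hσ, map_one, Units.val_one]
  have hN₂open : IsOpen (N₂ : Set GQ) := by
    refine Subgroup.isOpen_mono (H₁ := L.fixingSubgroup) ?_ hLopen
    intro σ hσ
    exact ⟨1, by rw [hLρ σ hσ, one_smul]⟩
  haveI : N₁.Normal := by rw [hN₁]; infer_instance
  haveI : N₂.Normal := by rw [hN₂]; infer_instance
  -- the finite set of excluded primes
  have hNp : N * p ≠ 0 := Nat.mul_ne_zero hN hp.ne_zero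
  have hS₀ : ∀ ℓ : ℕ, ℓ.Prime → ℓ ∉ (N * p).primeFactors → ¬ ℓ ∣ N * p := by
    intro ℓ hℓ hmem hdvd
    exact hmem (Nat.mem_primeFactors.mpr ⟨hℓ, hdvd, hNp⟩)
  have hne : N₁ ≠ ⊤ := by
    intro htop
    have h1 : σ₀ ∈ N₁ := by rw [htop]; exact Subgroup.mem_top _
    rw [hmemN₁, hdet₀, chiBar_of_isFrobeniusAt hℓ₀ (ne_of_not_dvd h₀) hA₀ hσ₀] at h1
    exact hαℓ h1
  have key := index_le_two_of_frobenius_cover N₁ N₂ hN₁open hN₂open (N * p).primeFactors
    (fun ℓ hℓ hℓS A hA τ hτ => by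
      have hnd := hS₀ ℓ hℓ hℓS
      have h1 : R.ρ τ = 1 := R.unram ℓ hℓ hnd A hA τ hτ
      refine ⟨?_, ⟨1, by rw [h1, one_smul]⟩⟩
      rw [hmemN₁, h1, chiBar_of_mem_inertia hℓ (ne_of_not_dvd hnd) hA hτ, map_one, Units.val_one])
    (fun ℓ hℓ hℓS => by
      have hnd := hS₀ ℓ hℓ hℓS
      obtain ⟨A, σ, hA, hσ⟩ := Fermat.Agent.Helper5.exists_isFrobeniusAt ℓ hℓ
      refine ⟨A, σ, hA, hσ, ?_⟩
      rcases frob_dichotomy R hℓ hnd hA hσ with ⟨-, hd⟩ | ⟨β, hβ, -⟩
      · left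
        rw [hmemN₁, hd, chiBar_of_isFrobeniusAt hℓ (ne_of_not_dvd hnd) hA hσ]
      · right
        exact ⟨β, hβ⟩)
    hne
  intro σ τ
  exact commute_of_scalar R.ρ σ τ (key σ τ)

end Piece

section Diag

variable {k : Type*} [Field k] {G : Type*} [Group G]

/-- the diagonal representation `c ⊕ d` on `k²`. -/
def diagRep (c d : G →* kˣ) : G →* Module.End k (Fin 2 → k) where
  toFun σ := Matrix.toLin' (Matrix.diagonal fun i : Fin 2 => ((((![c, d] : Fin 2 → (G →* kˣ)) i σ : kˣ)) : k))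
  map_one' := by
    have : (fun i : Fin 2 => ((((![c, d] : Fin 2 → (G →* kˣ)) i 1 : kˣ)) : k)) = fun _ => 1 := by
      funext i
      rw [map_one, Units.val_one]
    rw [this, Matrix.diagonal_one, Matrix.toLin'_one]
    rfl
  map_mul' σ τ := by
    have : (fun i : Fin 2 => ((((![c, d] : Fin 2 → (G →* kˣ)) i (σ * τ) : kˣ)) : k)) =
        fun i => ((((![c, d] : Fin 2 → (G →* kˣ)) i σ : kˣ)) : k) *
          ((((![c, d] : Fin 2 → (G →* kˣ)) i τ : kˣ)) : k) := by
      funext i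
      rw [map_mul, Units.val_mul]
    rw [this, ← Matrix.diagonal_mul_diagonal, Matrix.toLin'_mul]
    rfl

theorem diagRep_apply (c d : G →* kˣ) (σ : G) :
    diagRep c d σ = Matrix.toLin' (Matrix.diagonal ![((c σ : kˣ) : k), ((d σ : kˣ) : k)]) := by
  change Matrix.toLin' _ = _
  congr 2
  funext i
  fin_cases i <;> rfl

theorem diagRep_eq_one (c d : G →* kˣ) {σ : G} (hc : c σ = 1) (hd : d σ = 1) :
    diagRep c d σ = 1 := by
  rw [diagRep_apply, hc, hd, Units.val_one]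
  have : (![(1 : k), 1] : Fin 2 → k) = fun _ => 1 := by
    funext i; fin_cases i <;> rfl
  rw [this, Matrix.diagonal_one, Matrix.toLin'_one]
  rfl

theorem charpoly_diagRep (c d : G →* kˣ) (σ : G) :
    LinearMap.charpoly (diagRep c d σ) =
      X ^ 2 - C (((c σ : kˣ) : k) + ((d σ : kˣ) : k)) * X + C (((c σ : kˣ) : k) * ((d σ : kˣ) : k)) := by
  rw [diagRep_apply, Matrix.charpoly_toLin', Matrix.charpoly_fin_two, Matrix.trace_fin_two,
    Matrix.det_fin_two]
  simp

end Diag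

section Final

variable {N p : ℕ} [Fact p.Prime] {k₀ : Type} [Field k₀] [CharP k₀ p] [IsAlgClosed k₀]
  {abar : Nat.Primes → k₀} (R : ResidualPiece N p k₀ abar)

omit [Fact p.Prime] [CharP k₀ p] in
/-- an abelian image has an eigen-character. -/
theorem exists_eigen_character (hcomm : ∀ σ τ : GQ, Commute (R.ρ σ) (R.ρ τ)) :
    ∃ (v : R.W) (c : GQ →* k₀ˣ), v ≠ 0 ∧ ∀ σ : GQ, R.ρ σ v = ((c σ : k₀ˣ) : k₀) • v := by
  obtain ⟨v, hv, h⟩ := exists_common_eigenvector R.finrank_eq (fun σ : GQ => R.ρ σ) hcomm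
  choose c hc using h
  have hinj : Function.Injective fun a : k₀ => a • v := smul_left_injective k₀ hv
  let c₀ : GQ →* k₀ :=
    { toFun := c
      map_one' := by
        apply hinj
        change c 1 • v = (1 : k₀) • v
        rw [← hc 1, map_one, one_smul, Module.End.one_apply]
      map_mul' := fun σ τ => by
        apply hinj
        change c (σ * τ) • v = (c σ * c τ) • v
        rw [← hc (σ * τ), map_mul, Module.End.mul_apply, hc τ, map_smul, hc σ, smul_smul,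
          mul_comm] }
  exact ⟨v, c₀.toHomUnits, hv, fun σ => hc σ⟩

/-- **Block X.**  A residual piece gives a residual representation with exact Frobenius
characteristic polynomials. -/
theorem hasAttachedResidual_of_residualPiece (R : ResidualPiece N p k₀ abar) :
    HasAttachedResidual N p k₀ abar := by
  classical
  -- the representation `ρ` itself
  let ρG : ResidualGaloisRep k₀ :=
    { V := R.W
      finrank_eq := R.finrank_eq
      ρ := R.ρ
      factorsThroughFiniteLevel := R.finiteLevel }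
  by_cases hall : ∀ (ℓ : ℕ) (hℓ : ℓ.Prime), ¬ ℓ ∣ N * p →
      ∀ A : ValuationSubring Qb, A.LiesOverPrime ℓ → ∀ σ : GQ, A.IsFrobeniusAt σ ℓ →
        LinearMap.charpoly (R.ρ σ) = X ^ 2 - C (abar ⟨ℓ, hℓ⟩) * X + C (ℓ : k₀)
  · exact ⟨ρG, fun ℓ hℓ h A hA σ hσ => R.unram ℓ hℓ h A hA σ hσ, hall⟩
  · push Not at hall
    obtain ⟨ℓ₀, hℓ₀, h₀, A₀, hA₀, σ₀, hσ₀, hbad⟩ := hall
    have hN : N ≠ 0 := by
      rintro rfl
      exact h₀ (by rw [zero_mul]; exact dvd_zero _)
    have hcomm := commute_of_bad R hN hℓ₀ h₀ hA₀ hσ₀ hbad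
    obtain ⟨v, c, hv, hc⟩ := exists_eigen_character R hcomm
    have hinj : Function.Injective fun a : k₀ => a • v := smul_left_injective k₀ hv
    -- `c σ = 1` whenever `ρ σ = 1`
    have hc1 : ∀ σ : GQ, R.ρ σ = 1 → c σ = 1 := by
      intro σ hσ
      apply Units.ext
      apply hinj
      change ((c σ : k₀ˣ) : k₀) • v = ((1 : k₀ˣ) : k₀) • v
      rw [← hc σ, hσ, Units.val_one, one_smul, Module.End.one_apply]
    set d : GQ →* k₀ˣ := chiBar p k₀ / c with hd
    obtain ⟨L₀, hL₀fd, hL₀⟩ := R.finiteLevel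
    haveI := hL₀fd
    let ρ' : ResidualGaloisRep k₀ :=
      { V := Fin 2 → k₀
        finrank_eq := by rw [Module.finrank_fin_fun]
        ρ := diagRep c d
        factorsThroughFiniteLevel := by
          refine ⟨L₀ ⊔ Fermat.Agent.ExtVan.cycloField p,
            IntermediateField.finiteDimensional_sup _ _, fun σ hσ => ?_⟩
          have h1 : R.ρ σ = 1 := hL₀ σ fun x hx => hσ x (le_sup_left (a := L₀) hx)
          have h2 : chiBar p k₀ σ = 1 := chiBar_of_fixes_cycloField fun x hx =>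
            hσ x (le_sup_right (b := Fermat.Agent.ExtVan.cycloField p) hx)
          apply diagRep_eq_one
          · exact hc1 σ h1
          · rw [hd, MonoidHom.div_apply, h2, hc1 σ h1, div_one] }
    refine ⟨ρ', ?_, ?_⟩
    · -- unramified
      intro ℓ hℓ h A hA σ hσ
      have h1 : R.ρ σ = 1 := R.unram ℓ hℓ h A hA σ hσ
      have h2 : chiBar p k₀ σ = 1 := chiBar_of_mem_inertia hℓ (ne_of_not_dvd h) hA hσ
      change diagRep c d σ = 1
      apply diagRep_eq_one
      · exact hc1 σ h1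
      · rw [hd, MonoidHom.div_apply, h2, hc1 σ h1, div_one]
    · -- characteristic polynomials
      intro ℓ hℓ h A hA σ hσ
      change LinearMap.charpoly (diagRep c d σ) = _
      rw [charpoly_diagRep]
      have hχ : ((chiBar p k₀ σ : k₀ˣ) : k₀) = (ℓ : k₀) :=
        chiBar_of_isFrobeniusAt hℓ (ne_of_not_dvd h) hA hσ
      set γ : k₀ := ((c σ : k₀ˣ) : k₀) with hγ
      have hγ0 : γ ≠ 0 := (c σ).ne_zero
      have hdσ : ((d σ : k₀ˣ) : k₀) = (ℓ : k₀) / γ := by
        rw [hd, MonoidHom.div_apply, Units.val_div_eq_div_val, hχ]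
      -- `γ` is a root of the quadratic
      have hroot : γ * γ - abar ⟨ℓ, hℓ⟩ * γ + (ℓ : k₀) = 0 := by
        have hq := R.frob ℓ hℓ h A hA σ hσ
        have hq' := LinearMap.congr_fun hq v
        simp only [LinearMap.add_apply, LinearMap.sub_apply, LinearMap.smul_apply,
          Module.End.mul_apply, Module.End.one_apply, LinearMap.zero_apply, hc σ, map_smul] at hq'
        apply hinj
        change (γ * γ - abar ⟨ℓ, hℓ⟩ * γ + (ℓ : k₀)) • v = (0 : k₀) • v
        rw [zero_smul, ← hq']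
        simp only [add_smul, sub_smul, mul_smul, hγ]
      rw [hdσ]
      have hsum : γ + (ℓ : k₀) / γ = abar ⟨ℓ, hℓ⟩ := by
        field_simp
        linear_combination hroot
      have hprod : γ * ((ℓ : k₀) / γ) = (ℓ : k₀) := by field_simp
      rw [hsum, hprod]

end Final

end Fermat.Agent.S29lib.X
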